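import Mathlib
import Fermat.Agent.H84.ORD.NodalSpecFinal
import Fermat.Agent.H66.ORD.TotIdeal
import Fermat.Agent.H99.SS2.CuspBeta

/-!
# P-ORD, block B1, row 1158 [DVR], component `0` : (LW) at the cusps (helper95)

`F = FLb (M p)`, `W = nmW M p` the Atkin-Lehner automorphism, `A` a valuation subring of `ℚ̄`,
`P` a place of `F` whose chart is `j⁻¹` (i.e. `j (P) ∉ A` : the centre of `P` is cuspidal).

* `map_mem_nmChart` : a `ℚ̄`-automorphism `σ` of `F` maps `B̄(y)` into `B̄(σ y)`;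
* `nmW_nmJ` : `W j = j_p` (the rational function with expansion `j (q^p)`);
* `nmLocalW_cusp` : **(LW) at the cusps** : for `g ∈ B̄(j⁻¹)` there is `t ∈ B̄(j⁻¹)`,
  `t ∉ 𝔐_P`, with `t * W g ∈ B̄(j⁻¹)`  (`W (B̄(j⁻¹)) ⊆ B̄(j⁻¹)_𝔪` at the cuspidal centres).
  Route : `W g ∈ B̄(j_p⁻¹)`; descent to a number field (helper66 `exists_descent_nmChart`); the
  shape of the modular equation at the cusps (helper99 `modelCusp_inLoc`) at the prime ideal
  `{b | bc b ∈ 𝔐_P}`; base change (helper66 `bc_mem_nmChart`).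
* `nmLocalW_cusp_nmY` : the same statement with the chart written `nmY A P`.
-/

set_option autoImplicit false
set_option maxSynthPendingDepth 3
set_option linter.unusedSectionVars false
set_option linter.unusedVariables false
set_option linter.style.haveILetI false
set_option synthInstance.maxHeartbeats 400000
set_option maxHeartbeats 1600000

noncomputable section

namespace Fermat.Agent.H95.ORD

open ModularCurve AlgebraicCurve Polynomial
open Fermat.Agent.H22.KL Fermat.Agent.H93.KL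
open Fermat.Agent.H9.E6 Fermat.Agent.H66 Fermat.Agent.H66.ORD Fermat.Agent.H84.ORD
open Fermat.Agent.H72.FF

section Transport

variable {N : ℕ} (A : ValuationSubring Qb)

/-- A `ℚ̄`-algebra endomorphism maps `A[y]` into `A[σ y]`. -/
theorem map_mem_nmPoly (σ : FLb N →ₐ[Qb] FLb N) (y : FLb N) {f : FLb N}
    (hf : f ∈ nmPoly N A y) : σ f ∈ nmPoly N A (σ y) := by
  induction hf using Subring.closure_induction with
  | mem x hx =>
    rcases hx with ⟨c, hc, rfl⟩ | hx
    · rw [AlgHom.commutes]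
      exact Fermat.Agent.H66.ORD.algebraMap_mem_nmPoly N A _ hc
    · rw [Set.mem_singleton_iff] at hx
      rw [hx]
      exact Fermat.Agent.H66.ORD.self_mem_nmPoly N A _
  | zero => rw [map_zero]; exact Subring.zero_mem _
  | one => rw [map_one]; exact Subring.one_mem _
  | add x z _ _ hx hz => rw [map_add]; exact Subring.add_mem _ hx hz
  | neg x _ hx => rw [map_neg]; exact Subring.neg_mem _ hx
  | mul x z _ _ hx hz => rw [map_mul]; exact Subring.mul_mem _ hx hz

/-- **Transport of integrality** : a `ℚ̄`-algebra endomorphism `σ` of `F` maps the chart `B̄(y)`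
into the chart `B̄(σ y)`. -/
theorem map_mem_nmChart (σ : FLb N →ₐ[Qb] FLb N) (y : FLb N) {f : FLb N}
    (hf : f ∈ nmChart N A y) : σ f ∈ nmChart N A (σ y) := by
  obtain ⟨q, hq, hroot⟩ := (mem_nmChart_iff N A y f).1 hf
  let φ : ↥(nmPoly N A y) →+* ↥(nmPoly N A (σ y)) :=
    RingHom.codRestrict ((σ : FLb N →+* FLb N).comp (nmPoly N A y).subtype) _
      (fun c => map_mem_nmPoly A σ y c.2)
  rw [mem_nmChart_iff]
  refine ⟨q.map φ, hq.map φ, ?_⟩
  rw [Polynomial.eval₂_map]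
  have hcomp : (nmPoly N A (σ y)).subtype.comp φ =
      (σ : FLb N →+* FLb N).comp (nmPoly N A y).subtype := RingHom.ext fun c => rfl
  rw [hcomp]
  have h := Polynomial.hom_eval₂ q (nmPoly N A y).subtype (σ : FLb N →+* FLb N) f
  rw [hroot, map_zero] at h
  exact h.symm

end Transport

section Cusp

variable (M p : ℕ) [NeZero M] [NeZero p]

/-- the rational function `j_p` of level `M p`, with expansion `j (q^p)` -/
def nmJpq : ↥(modularFunctionFieldFull (M * p)) :=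
  ⟨qExpand ℚ p jq, jqd_mem_full (M * p) (dvd_mul_left p M)⟩

/-- **`W j = j_p`.** -/
theorem nmW_nmJ (hcop : Nat.Coprime M p) :
    nmW M p hcop (nmJ (M * p)) =
      Fermat.Agent.H62.SS.ratBar (modularFunctionFieldFull (M * p)) (nmJpq M p) := by
  obtain ⟨-, hα, -, -⟩ := nmW_spec M p hcop
  have h1 : heckeAlphaBar Qb M p (nmJ M) = nmJ (M * p) := by
    apply Subtype.ext
    rw [coe_heckeAlphaBar]
    rfl
  have h2 : heckeBetaBar Qb M p (nmJ M) =
      Fermat.Agent.H62.SS.ratBar (modularFunctionFieldFull (M * p)) (nmJpq M p) := by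
    apply Subtype.ext
    rw [coe_heckeBetaBar]
    show qExpand Qb p (coeffEmb Qb (qExpand ℚ 1 jq)) = coeffEmb Qb (qExpand ℚ p jq)
    rw [qExpand_one_apply, coeffEmb, coeffMap_qExpand]
  rw [← h1, hα, h2]

/-- In a valuation subring, the inverse of an element outside the ring is a nonunit. -/
theorem inv_mem_nonunits_of_not_mem {F : Type*} [Field F] (V : ValuationSubring F) {x : F}
    (hx : x ∉ V) : x⁻¹ ∈ V.nonunits := by
  rw [ValuationSubring.mem_nonunits_iff, map_inv₀]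
  have h1 : ¬ V.valuation x ≤ 1 := fun h => hx ((ValuationSubring.valuation_le_one_iff _ _).1 h)
  exact inv_lt_one_of_one_lt₀ (not_le.1 h1)

/-- **(LW) at the cusps.**  If `j (P) ∉ A` (the centre of `P` is cuspidal, chart `j⁻¹`), then
`W` maps the chart `B̄(j⁻¹)` into its localisation at the centre of `P` : for `g ∈ B̄(j⁻¹)` there
is `t ∈ B̄(j⁻¹)`, `t ∉ 𝔐_P`, with `t * W g ∈ B̄(j⁻¹)`. -/
theorem nmLocalW_cusp (A : ValuationSubring Qb) (hp : p.Prime) (hcop : Nat.Coprime M p)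
    (P : Place Qb (FLb (M * p))) (hJ : nmJ (M * p) ∉ nmInt A P)
    (g : FLb (M * p)) (hg : g ∈ nmChart (M * p) A (nmJ (M * p))⁻¹) :
    ∃ t ∈ nmChart (M * p) A (nmJ (M * p))⁻¹, t ∉ nmMax A P ∧
      t * nmW M p hcop g ∈ nmChart (M * p) A (nmJ (M * p))⁻¹ := by
  classical
  haveI : NeZero (M * p) := ⟨Nat.mul_ne_zero (NeZero.ne M) (NeZero.ne p)⟩
  have hdeg : P.deg = 1 := Fermat.Agent.H70.SS.ss_deg_eq_one_bar (M * p) P
  have hY : nmY A P = (nmJ (M * p))⁻¹ := by
    unfold nmY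
    exact if_neg hJ
  -- `W g ∈ B̄(j_p⁻¹)`
  have hWg : nmW M p hcop g ∈ nmChart (M * p) A
      (Fermat.Agent.H62.SS.ratBar (modularFunctionFieldFull (M * p)) (nmJpq M p)⁻¹) := by
    have h1 := map_mem_nmChart A ((nmW M p hcop : FLb (M * p) ≃ₐ[Qb] FLb (M * p)) :
      FLb (M * p) →ₐ[Qb] FLb (M * p)) _ hg
    have h2 : ((nmW M p hcop : FLb (M * p) ≃ₐ[Qb] FLb (M * p)) :
        FLb (M * p) →ₐ[Qb] FLb (M * p)) (nmJ (M * p))⁻¹ =
        Fermat.Agent.H62.SS.ratBar (modularFunctionFieldFull (M * p)) (nmJpq M p)⁻¹ := by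
      rw [map_inv₀, map_inv₀]
      congr 1
      exact nmW_nmJ M p hcop
    rw [h2] at h1
    exact h1
  obtain ⟨K, hK, hd⟩ := exists_descent_nmChart (N := M * p) (A := A) ((nmJpq M p)⁻¹) _ hWg
  haveI := hK
  set ι : ↥K →+* Qb := algebraMap ↥K Qb with hι
  letI := modelAlgebra ↥K (A.comap ι) (M * p)
  haveI := modelAlgebra_isScalarTower ↥K (A.comap ι) (M * p)
  obtain ⟨f₁, hf₁, hf₁B⟩ := hd K le_rfl
  -- the coordinates
  set x : ModelField ↥K (M * p) :=
    Fermat.Agent.H62.SS.ratK (K₁ := ↥K) (modularFunctionFieldFull (M * p)) (nmJq (M * p))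
    with hxdef
  set xq : ModelField ↥K (M * p) :=
    Fermat.Agent.H62.SS.ratK (K₁ := ↥K) (modularFunctionFieldFull (M * p)) (nmJpq M p)
    with hxqdef
  have hx : (x : LaurentSeries ↥K) = jqModC ↥K := by
    show coeffEmb ↥K jq = jqModC ↥K
    rw [coeffEmb, ← jqModC_rat, coeffMap_jqModC]
  have hxq : (xq : LaurentSeries ↥K) = qExpand ↥K p (jqModC ↥K) := by
    show coeffEmb ↥K (qExpand ℚ p jq) = qExpand ↥K p (jqModC ↥K)
    rw [coeffEmb, coeffMap_qExpand, ← jqModC_rat, coeffMap_jqModC]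
  have hbcx : klBc ι (modularFunctionFieldFull (M * p)) x⁻¹ = (nmJ (M * p))⁻¹ := by
    rw [map_inv₀, hxdef, Fermat.Agent.H62.SS.klBc_ratK, ← nmJ_eq_ratBar]
  -- chart elements have values in `A` at `P`
  have hval : ∀ b ∈ chartClosure ↥(A.comap ι) (ModelField ↥K (M * p)) x⁻¹,
      klBc ι (modularFunctionFieldFull (M * p)) b ∈ nmComp A P hdeg := by
    intro b hb
    have h1 := bc_mem_nmChart (M * p) A ι _ b hb
    rw [hbcx, ← hY] at h1
    exact nmChart_nmY_le_nmInt A P h1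
  -- the prime ideal `{b | bc b ∈ 𝔐_P}`
  let ψ : ↥(chartClosure ↥(A.comap ι) (ModelField ↥K (M * p)) x⁻¹) →+* ↥(nmComp A P hdeg) :=
    RingHom.codRestrict ((klBc ι (modularFunctionFieldFull (M * p))).comp
      (chartClosure ↥(A.comap ι) (ModelField ↥K (M * p)) x⁻¹).toSubring.subtype)
      (nmComp A P hdeg) (fun b => hval b b.2)
  set 𝔪 : Ideal ↥(chartClosure ↥(A.comap ι) (ModelField ↥K (M * p)) x⁻¹) :=
    Ideal.comap ψ (IsLocalRing.maximalIdeal ↥(nmComp A P hdeg)) with h𝔪def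
  have h𝔪 : 𝔪.IsPrime := Ideal.comap_isPrime ψ _
  have hmem : ∀ b : ↥(chartClosure ↥(A.comap ι) (ModelField ↥K (M * p)) x⁻¹),
      b ∈ 𝔪 ↔ klBc ι (modularFunctionFieldFull (M * p)) (b : ModelField ↥K (M * p)) ∈
        nmMax A P := by
    intro b
    rw [← mem_nonunits_nmComp_iff A P hdeg,
      ValuationSubring.mem_nonunits_iff_exists_mem_maximalIdeal]
    constructor
    · intro hb
      exact ⟨(ψ b).2, hb⟩
    · rintro ⟨_, hb⟩
      exact hb
  have hξ : ∀ hm : x⁻¹ ∈ chartClosure ↥(A.comap ι) (ModelField ↥K (M * p)) x⁻¹,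
      (⟨x⁻¹, hm⟩ : ↥(chartClosure ↥(A.comap ι) (ModelField ↥K (M * p)) x⁻¹)) ∈ 𝔪 := by
    intro hm
    rw [hmem]
    show klBc ι (modularFunctionFieldFull (M * p)) x⁻¹ ∈ nmMax A P
    rw [hbcx, ← mem_nonunits_nmComp_iff A P hdeg]
    exact inv_mem_nonunits_of_not_mem _ hJ
  have hz : f₁ ∈ chartClosure ↥(A.comap ι) (ModelField ↥K (M * p)) xq⁻¹ := by
    have e : Fermat.Agent.H62.SS.ratK (K₁ := ↥K) (modularFunctionFieldFull (M * p))
        (nmJpq M p)⁻¹ = xq⁻¹ := map_inv₀ _ _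
    rw [← e]
    exact hf₁B
  obtain ⟨b, hb, hbz⟩ := Fermat.Agent.H99.SS2.modelCusp_inLoc (M * p) p ↥K ↥(A.comap ι) hp
    x xq hx hxq 𝔪 h𝔪 hξ f₁ hz
  refine ⟨klBc ι (modularFunctionFieldFull (M * p)) (b : ModelField ↥K (M * p)), ?_, ?_, ?_⟩
  · have h1 := bc_mem_nmChart (M * p) A ι _ _ b.2
    rw [hbcx] at h1
    exact h1
  · rw [← hmem]
    exact hb
  · have h1 := bc_mem_nmChart (M * p) A ι _ _ hbz
    rw [hbcx, map_mul, hf₁] at h1
    exact h1

/-- **(LW) at the cusps**, with the chart written `nmY A P`. -/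
theorem nmLocalW_cusp_nmY (A : ValuationSubring Qb) (h : NmSetup M p A)
    (P : Place Qb (FLb (M * p))) (hJ : nmJ (M * p) ∉ nmInt A P)
    (g : FLb (M * p)) (hg : g ∈ nmChart (M * p) A (nmY A P)) :
    ∃ t ∈ nmChart (M * p) A (nmY A P), t ∉ nmMax A P ∧
      t * nmW M p h.cop g ∈ nmChart (M * p) A (nmY A P) := by
  classical
  haveI : NeZero (M * p) := ⟨Nat.mul_ne_zero (NeZero.ne M) (NeZero.ne p)⟩
  have hY : nmY A P = (nmJ (M * p))⁻¹ := by
    unfold nmY
    exact if_neg hJ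
  rw [hY] at hg ⊢
  exact nmLocalW_cusp M p A h.prime h.cop P hJ g hg

end Cusp

end Fermat.Agent.H95.ORD

end
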