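import Mathlib
import Fermat.Agent.H95.ORD.LocalWCusp
import Fermat.Agent.H86.ORD.DvrTransport
import Fermat.Agent.H66.SS.ModelIntegral

/-!
# P-ORD, block B1, row 1158 [DVR], component `0` : (LW), final form (helper95)

`nmLocalW M p : Fermat.Agent.H86.ORD.NmLocalWStatement M p` : local `W`-stability of the charts
at the centres, UNCONDITIONAL (for all `M`, `p` with `NmSetup M p A`; only `p` prime and
`M`, `p` coprime are used).

* chart `j` : `t = 1`, because `W j = j_p` is integral over `A[j]` (`nmLocalW_j`);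
* chart `j⁻¹` (cuspidal centres) : `Fermat.Agent.H95.ORD.nmLocalW_cusp_nmY`.

Consequence (helper86 `nmDvrZero_of_oo`) : `nmDvrZero_of_oo' : NmSoftStatement M p →
NmDvrOoStatement M p → NmDvrZeroStatement M p`.
-/

set_option autoImplicit false
set_option maxSynthPendingDepth 3
set_option linter.unusedSectionVars false
set_option linter.unusedVariables false
set_option linter.style.haveILetI false
set_option synthInstance.maxHeartbeats 400000
set_option maxHeartbeats 1600000

noncomputable section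

namespace Fermat.Agent.H95.ORD

open ModularCurve AlgebraicCurve Polynomial
open Fermat.Agent.H22.KL Fermat.Agent.H93.KL
open Fermat.Agent.H9.E6 Fermat.Agent.H66 Fermat.Agent.H66.ORD Fermat.Agent.H84.ORD
open Fermat.Agent.H72.FF

section Mono

variable {N : ℕ} (A : ValuationSubring Qb)

/-- **Monotonicity of the charts** : if `y' ∈ B̄(y)` then `B̄(y') ⊆ B̄(y)`. -/
theorem nmChart_le_of_mem {y y' : FLb N} (hy' : y' ∈ nmChart N A y) {f : FLb N}
    (hf : f ∈ nmChart N A y') : f ∈ nmChart N A y := by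
  letI : Algebra ↥(nmPoly N A y) (FLb N) := (nmPoly N A y).subtype.toAlgebra
  have hle : ∀ z ∈ nmPoly N A y', z ∈ integralClosure ↥(nmPoly N A y) (FLb N) := by
    intro z hz
    induction hz using Subring.closure_induction with
    | mem x hx =>
      rcases hx with ⟨c, hc, rfl⟩ | hx
      · exact Fermat.Agent.H84.ORD.algebraMap_mem_nmChart (N := N) A y hc
      · rw [Set.mem_singleton_iff] at hx
        rw [hx]
        exact hy'
    | zero => exact Subalgebra.zero_mem _
    | one => exact Subalgebra.one_mem _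
    | add x z _ _ hx hz => exact Subalgebra.add_mem _ hx hz
    | neg x _ hx => exact Subalgebra.neg_mem _ hx
    | mul x z _ _ hx hz => exact Subalgebra.mul_mem _ hx hz
  obtain ⟨q, hq, hroot⟩ := (mem_nmChart_iff N A y' f).1 hf
  set Q : (FLb N)[X] := q.map (nmPoly N A y').subtype with hQ
  have hQm : Q.Monic := hq.map _
  have hQz : Q.eval f = 0 := by
    rw [hQ, Polynomial.eval_map]
    exact hroot
  have hQc : ∀ i, Q.coeff i ∈ integralClosure ↥(nmPoly N A y) (FLb N) := by
    intro i
    rw [hQ, Polynomial.coeff_map]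
    exact hle _ (q.coeff i).2
  have hint := Fermat.Agent.H85.klc_isIntegral_of_poly (A := ↥(nmPoly N A y))
    (integralClosure ↥(nmPoly N A y) (FLb N)) Q hQm hQc f hQz
  have h3 : f ∈ integralClosure (integralClosure ↥(nmPoly N A y) (FLb N)) (FLb N) := hint
  rw [integralClosure_idem] at h3
  obtain ⟨b, hb⟩ := Algebra.mem_bot.mp h3
  rw [← hb]
  exact b.2

end Mono

section ChartJ

variable (M p : ℕ) [NeZero M] [NeZero p]

/-- `j_p ∈ B̄(j)` at the `ℚ̄`-level. -/
theorem nmJp_mem_nmChart (A : ValuationSubring Qb) :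
    Fermat.Agent.H62.SS.ratBar (modularFunctionFieldFull (M * p)) (nmJpq M p) ∈
      nmChart (M * p) A (nmJ (M * p)) := by
  haveI : NeZero (M * p) := ⟨Nat.mul_ne_zero (NeZero.ne M) (NeZero.ne p)⟩
  set K : IntermediateField ℚ Qb := ⊥ with hK
  set ι : ↥K →+* Qb := algebraMap ↥K Qb with hι
  letI := modelAlgebra ↥K (A.comap ι) (M * p)
  haveI := modelAlgebra_isScalarTower ↥K (A.comap ι) (M * p)
  set x : ModelField ↥K (M * p) :=
    Fermat.Agent.H62.SS.ratK (K₁ := ↥K) (modularFunctionFieldFull (M * p)) (nmJq (M * p))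
    with hxdef
  set xq : ModelField ↥K (M * p) :=
    Fermat.Agent.H62.SS.ratK (K₁ := ↥K) (modularFunctionFieldFull (M * p)) (nmJpq M p)
    with hxqdef
  have hx : (x : LaurentSeries ↥K) = coeffEmb ↥K jq := rfl
  have hxq : (xq : LaurentSeries ↥K) = qExpand ↥K p (jqModC ↥K) := by
    show coeffEmb ↥K (qExpand ℚ p jq) = qExpand ↥K p (jqModC ↥K)
    rw [coeffEmb, coeffMap_qExpand, ← jqModC_rat, coeffMap_jqModC]
  have h1 : xq ∈ chartClosure ↥(A.comap ι) (ModelField ↥K (M * p)) x := by
    rw [Fermat.Agent.H87.KL.mem_chartClosure_iff]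
    exact Fermat.Agent.H66.SS.smi_gen x hx xq p hxq
  have h2 := bc_mem_nmChart (M * p) A ι _ _ h1
  rw [hxdef, hxqdef, Fermat.Agent.H62.SS.klBc_ratK, Fermat.Agent.H62.SS.klBc_ratK,
    ← nmJ_eq_ratBar] at h2
  exact h2

/-- **(LW) in the chart `j`** : `W (B̄(j)) ⊆ B̄(j)`. -/
theorem nmLocalW_j (A : ValuationSubring Qb) (hcop : Nat.Coprime M p)
    (g : FLb (M * p)) (hg : g ∈ nmChart (M * p) A (nmJ (M * p))) :
    nmW M p hcop g ∈ nmChart (M * p) A (nmJ (M * p)) := by
  haveI : NeZero (M * p) := ⟨Nat.mul_ne_zero (NeZero.ne M) (NeZero.ne p)⟩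
  have h1 := map_mem_nmChart A ((nmW M p hcop : FLb (M * p) ≃ₐ[Qb] FLb (M * p)) :
    FLb (M * p) →ₐ[Qb] FLb (M * p)) _ hg
  have h2 : ((nmW M p hcop : FLb (M * p) ≃ₐ[Qb] FLb (M * p)) :
      FLb (M * p) →ₐ[Qb] FLb (M * p)) (nmJ (M * p)) =
      Fermat.Agent.H62.SS.ratBar (modularFunctionFieldFull (M * p)) (nmJpq M p) :=
    nmW_nmJ M p hcop
  rw [h2] at h1
  exact nmChart_le_of_mem A (nmJp_mem_nmChart M p A) h1

/-- **(LW)** : local `W`-stability of the charts at the centres, unconditional. -/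
theorem nmLocalW : Fermat.Agent.H86.ORD.NmLocalWStatement M p := by
  classical
  intro A h P g hg
  haveI : NeZero (M * p) := ⟨Nat.mul_ne_zero (NeZero.ne M) (NeZero.ne p)⟩
  have hdeg : P.deg = 1 := Fermat.Agent.H70.SS.ss_deg_eq_one_bar (M * p) P
  by_cases hJ : nmJ (M * p) ∈ nmInt A P
  · have hY : nmY A P = nmJ (M * p) := by
      unfold nmY
      exact if_pos hJ
    rw [hY] at hg ⊢
    refine ⟨1, Subring.one_mem _, ?_, ?_⟩
    · rw [← mem_nonunits_nmComp_iff A P hdeg, ValuationSubring.mem_nonunits_iff, map_one]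
      exact lt_irrefl _
    · rw [one_mul]
      exact nmLocalW_j M p A h.cop g hg
  · exact nmLocalW_cusp_nmY M p A h P hJ g hg

/-- **[DVR], component `0`, from component `∞`** (helper86's transport with (LW) plugged in). -/
theorem nmDvrZero_of_oo' (hS : NmSoftStatement M p) (hD : NmDvrOoStatement M p) :
    NmDvrZeroStatement M p :=
  Fermat.Agent.H86.ORD.nmDvrZero_of_oo hS (nmLocalW M p) hD

end ChartJ

end Fermat.Agent.H95.ORD

end
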