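import Fermat.Agent.H41.ORD.DvrAbs
import Fermat.Agent.H41.ORD.NmValChart
import Fermat.Agent.H92.ORD.NodalAsm

/-!
# P-ORD, block B1, row 1158 [DVR-oo], step D2 (helper95) : the place from [VAL]

Generic component `(V, red)` of helper84 (`Fermat.Agent.H84.ORD.CompSoft`), `P` a place of
`F = FLb N`, `B̄ = nmChart N A (nmY A P)`, `O := red (B̄_𝔪) = {z | GenLocal A V red P z}`.

* `genDvr_of_val` : if the centre of `P` lies on the component (`𝔮 ∩ B̄ ⊆ 𝔪_P`), `O` is a
  valuation ring of `Fk` ([VAL] : `z ∈ O ∨ z⁻¹ ∈ O`), the reduction of `j` is not constant, and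
  every valuation ring `k ⊆ O' ⊊ Fk` is principal (D1, `valDisc`), then `O` is (the valuation
  ring of) a place `Q` of `Fk / k` over the centre of `P`.
* `nmRedOo_nmJ_ne_const` : `red_∞ j = j(q)` is not constant.
* `NmValDiscStatement M p` : D1 for the component field `NmF (M p) A` (exact Prop);
  `nmValDisc_of_rr` : from the abstract D1 for fields with `RRHyp`.
* `nmDvrOo_of_val` : `NmSoftStatement → NmValDiscStatement → NmValOoStatement →
  NmDvrOoStatement`  (**D2**).
-/

set_option autoImplicit false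
set_option linter.unusedSectionVars false
set_option linter.style.haveILetI false
set_option linter.unusedVariables false

noncomputable section

open AlgebraicCurve ModularCurve

namespace Fermat.Agent.H95.ORD

open Fermat.Agent.H72.FF Fermat.Agent.H18.ORD Fermat.Agent.H84.ORD Fermat.Agent.H41.ORD
open Fermat.Agent.H66 Fermat.Agent.H27.ESD

section Gen

variable {N : ℕ} [NeZero N] {A : ValuationSubring Qb} {Fk : Type} [Field Fk]
  [Algebra (kRes A) Fk] {V : Subring (FLb N)} {red : V →+* Fk}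

variable (P : Place Qb (FLb N))

/-- the chart coordinate of `P` lies in the component ring -/
theorem dv_nmY_mem (H : CompSoft A V red) : nmY A P ∈ V := by
  classical
  unfold nmY
  split_ifs
  · exact H.j_mem
  · exact H.jinv_mem

/-- the reduction of the chart coordinate is not constant -/
theorem dv_red_nmY_ne_const (H : CompSoft A V red)
    (hnc : ∀ c : kRes A, red ⟨nmJ N, H.j_mem⟩ ≠ algebraMap (kRes A) Fk c) (c : kRes A) :
    red ⟨nmY A P, dv_nmY_mem P H⟩ ≠ algebraMap (kRes A) Fk c := by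
  classical
  have hJ0 : red ⟨nmJ N, H.j_mem⟩ ≠ 0 := by
    intro h
    exact hnc 0 (by rw [h, map_zero])
  have hmul : red ⟨nmJ N, H.j_mem⟩ * red ⟨(nmJ N)⁻¹, H.jinv_mem⟩ = 1 := by
    rw [← map_mul]
    have e : ((⟨nmJ N, H.j_mem⟩ : V) * ⟨(nmJ N)⁻¹, H.jinv_mem⟩ : V) = 1 := by
      apply Subtype.ext
      show nmJ N * (nmJ N)⁻¹ = 1
      apply mul_inv_cancel₀
      intro h0
      apply hJ0
      have e0 : (⟨nmJ N, H.j_mem⟩ : V) = 0 := Subtype.ext h0
      rw [e0, map_zero]
    rw [e, map_one]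
  by_cases hJ : nmJ N ∈ nmInt A P
  · have e : (⟨nmY A P, dv_nmY_mem P H⟩ : V) = ⟨nmJ N, H.j_mem⟩ := by
      apply Subtype.ext
      show nmY A P = nmJ N
      unfold nmY
      rw [if_pos hJ]
    rw [e]
    exact hnc c
  · have e : (⟨nmY A P, dv_nmY_mem P H⟩ : V) = ⟨(nmJ N)⁻¹, H.jinv_mem⟩ := by
      apply Subtype.ext
      show nmY A P = (nmJ N)⁻¹
      unfold nmY
      rw [if_neg hJ]
    rw [e]
    intro h
    rw [h] at hmul
    apply hnc c⁻¹
    rw [map_inv₀]
    exact eq_inv_of_mul_eq_one_left hmul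

/-- an element of the centre with non-zero reduction -/
theorem dv_exists_centre (H : CompSoft A V red)
    (hnc : ∀ c : kRes A, red ⟨nmJ N, H.j_mem⟩ ≠ algebraMap (kRes A) Fk c) :
    ∃ f ∈ nmCentre A P, ∃ hf : f ∈ V, red ⟨f, hf⟩ ≠ 0 := by
  obtain ⟨c, hcA, -, hcen⟩ := nmChart_decomp P (H.deg P) (self_mem_nmChart A (nmY A P))
  have hcV : algebraMap Qb (FLb N) c ∈ V := H.const_mem c hcA
  refine ⟨_, hcen, V.sub_mem (dv_nmY_mem P H) hcV, ?_⟩
  have e : (⟨nmY A P - algebraMap Qb (FLb N) c, V.sub_mem (dv_nmY_mem P H) hcV⟩ : V) =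
      ⟨nmY A P, dv_nmY_mem P H⟩ - ⟨algebraMap Qb (FLb N) c, hcV⟩ := rfl
  rw [e, map_sub, H.red_const ⟨c, hcA⟩ hcV, sub_ne_zero]
  exact dv_red_nmY_ne_const P H hnc _

/-- **[DVR] from [VAL] and D1** (generic component). -/
theorem genDvr_of_val (H : CompSoft A V red)
    (hideal : ∀ f ∈ nmChart N A (nmY A P), ∀ h : f ∈ V, red ⟨f, h⟩ = 0 → f ∈ nmMax A P)
    (hval : ∀ z : Fk, GenLocal A V red P z ∨ GenLocal A V red P z⁻¹)
    (hnc : ∀ c : kRes A, red ⟨nmJ N, H.j_mem⟩ ≠ algebraMap (kRes A) Fk c)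
    (hPIR : ∀ O : ValuationSubring Fk, (∀ c : kRes A, algebraMap (kRes A) Fk c ∈ O) →
      O ≠ ⊤ → IsPrincipalIdealRing O) :
    ∃ Q : Place (kRes A) Fk, GenSpec V red (nmCentre A P) Q ∧
      ∀ z ∈ Q.toValuationSubring, GenLocal A V red P z := by
  classical
  let O : ValuationSubring Fk :=
    { carrier := {z | GenLocal A V red P z}
      mul_mem' := fun {a b} ha hb => genLocal_mul P H ha hb
      one_mem' := genLocal_one P H
      add_mem' := fun {a b} ha hb => genLocal_add P H ha hb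
      zero_mem' := genLocal_zero P H
      neg_mem' := fun {a} ha => genLocal_neg P H ha
      mem_or_inv_mem' := hval }
  have hO : ∀ z : Fk, z ∈ O ↔ GenLocal A V red P z := fun z => Iff.rfl
  have hnu : ∀ z : Fk, z ∈ O.nonunits ↔ z = 0 ∨ ¬ GenLocal A V red P z⁻¹ := by
    intro z
    rw [ValuationSubring.mem_nonunits_iff_or]
    exact Iff.rfl
  have hk : ∀ c : kRes A, algebraMap (kRes A) Fk c ∈ O := fun c => genLocal_const P H c
  have htop : O ≠ ⊤ := by
    obtain ⟨f, hfc, hf, hne⟩ := dv_exists_centre P H hnc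
    intro h
    apply genLocal_centre_not_unit P H hideal hfc hf hne
    rw [← hO, h]
    exact ValuationSubring.mem_top _
  refine ⟨⟨O, hk, htop, hPIR O hk htop⟩, ?_, fun z hz => hz⟩
  intro f hfc hf
  show red ⟨f, hf⟩ ∈ O.nonunits
  rw [hnu]
  by_cases h0 : red ⟨f, hf⟩ = 0
  · exact Or.inl h0
  · exact Or.inr (genLocal_centre_not_unit P H hideal hfc hf h0)

end Gen

section Nm

variable {M p : ℕ} [NeZero M] [NeZero p]

/-- `red_∞ j = j(q)` is not constant. -/
theorem nmRedOo_nmJ_ne_const (N : ℕ) [NeZero N] (A : ValuationSubring Qb)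
    (hj : nmJ N ∈ gaussOBar N A) (c : kRes A) :
    nmRedOo N A ⟨nmJ N, hj⟩ ≠ algebraMap (kRes A) (NmF N A) c := by
  intro h
  have h1 : ((nmRedOo N A ⟨nmJ N, hj⟩ : NmF N A) : LaurentSeries (kRes A)) =
      ((algebraMap (kRes A) (NmF N A) c : NmF N A) : LaurentSeries (kRes A)) := by
    rw [h]
  rw [coe_nmRedOo, coe_nmAlgebraMap] at h1
  have h2 : gaussRedBar N A ⟨nmJ N, hj⟩ = qExpand (kRes A) 1 (jqModC (kRes A)) :=
    nm_jBarD_red N 1 (one_dvd N) A
  rw [h2] at h1
  have h3 := qExpand_coeff_mul (N := 1) (jqModC (kRes A)) (-1)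
  rw [h1, coeff_jqModC_neg_one] at h3
  have h4 : algebraMap (kRes A) (LaurentSeries (kRes A)) c = HahnSeries.single 0 c := by
    have h5 : algebraMap (kRes A) (PowerSeries (kRes A)) c = PowerSeries.C c := by simp
    rw [HahnSeries.algebraMap_apply', h5, HahnSeries.ofPowerSeries_C]
    rfl
  rw [h4, HahnSeries.coeff_single_of_ne (by decide)] at h3
  exact zero_ne_one h3

/-- **D1 for the component field** : every valuation ring `k ⊆ O ⊊ F_∞` is principal. -/
def NmValDiscStatement (M p : ℕ) [NeZero M] [NeZero p] : Prop :=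
  ∀ (A : ValuationSubring Qb) (_ : NmSetup M p A) (O : ValuationSubring (NmF (M * p) A)),
    (∀ c : kRes A, algebraMap (kRes A) (NmF (M * p) A) c ∈ O) → O ≠ ⊤ → IsPrincipalIdealRing O

/-- D1 for the component field from the abstract D1 (valuation rings of a field with
`RRHyp`), through `b1_rrHyp_nmF`. -/
theorem nmValDisc_of_rr
    (hD1 : ∀ (A : ValuationSubring Qb), Fermat.Agent.H58.RRHyp (kRes A) (NmF (M * p) A) →
      ∀ O : ValuationSubring (NmF (M * p) A),
        (∀ c : kRes A, algebraMap (kRes A) (NmF (M * p) A) c ∈ O) → O ≠ ⊤ →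
        IsPrincipalIdealRing O) : NmValDiscStatement M p := by
  intro A h O hk htop
  have hpM : ¬ p ∣ M := fun hd =>
    h.prime.one_lt.ne' (Nat.Coprime.eq_one_of_dvd h.cop.symm hd)
  exact hD1 A (Fermat.Agent.H92.ORD.b1_rrHyp_nmF M p h.prime hpM A h.liesOver).2 O hk htop

/-- **D2 : [DVR], component `∞`, from [VAL] and D1.** -/
theorem nmDvrOo_of_val (hS : NmSoftStatement M p) (hD : NmValDiscStatement M p)
    (hV : NmValOoStatement M p) : NmDvrOoStatement M p := by
  intro A h P hP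
  have H : NmBase M p A := nmBase_of_soft hS h
  exact genDvr_of_val P H.oo hP (hV A h P hP)
    (fun c => nmRedOo_nmJ_ne_const (M * p) A H.oo.j_mem c) (hD A h)

end Nm

end Fermat.Agent.H95.ORD

end
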